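import Mathlib
import Fermat.Prelude.Def_FLTPrelim_Modularity

/-!
# S16 / TH: shared definitions for the theta series of a quaternary quadratic form
(proposal of helper16 for the TH block; interface between INV, GAUSS, THETA-ANALYTIC, HECKE-TRICK)

`A`, `A'` (= `A♯`) are integral `4 × 4` matrices; `quad A v = ½ vᵀ A v` for a real vector `v`;
`theta A z = ∑_{x ∈ ℤ⁴} e(Q(x) z)`, `e(t) = exp(2π i t)`.
-/

set_option autoImplicit false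

open Complex UpperHalfPlane
open scoped Real

namespace Fermat.Agent.S16.TH

/-- `Q_A(v) = ½ vᵀ A v` for a real vector `v`. -/
noncomputable def quad (A : Matrix (Fin 4) (Fin 4) ℤ) (v : Fin 4 → ℝ) : ℝ :=
  (∑ i, ∑ j, (A i j : ℝ) * v i * v j) / 2

/-- The theta series `Θ_A(z) = ∑_{x ∈ ℤ⁴} exp(2π i Q_A(x) z)`. -/
noncomputable def theta (A : Matrix (Fin 4) (Fin 4) ℤ) (z : ℍ) : ℂ :=
  ∑' x : Fin 4 → ℤ, cexp (2 * π * Complex.I * (quad A (fun i => (x i : ℝ)) : ℂ) * (z : ℂ))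

/-- (INV) the inversion formula (4-dimensional Gaussian Poisson summation) for the pair `A`, `A'`
with `A * A' = p`, `det A = p ^ 2`, with summability of both sides:
`∑_x e(Q(x+v) τ) = (1/p) (-1/τ²) ∑_y e(-Q'(y)/(p τ) + yᵀ v)` for real `v`, `Im τ > 0`. -/
def InvStatement (p : ℕ) (A A' : Matrix (Fin 4) (Fin 4) ℤ) : Prop :=
  ∀ (v : Fin 4 → ℝ) (τ : ℂ), 0 < τ.im →
    Summable (fun x : Fin 4 → ℤ =>
      cexp (2 * π * Complex.I * (quad A (fun i => (x i : ℝ) + v i) : ℂ) * τ)) ∧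
    Summable (fun y : Fin 4 → ℤ =>
      cexp (2 * π * Complex.I * (-(quad A' (fun i => (y i : ℝ)) : ℂ) / ((p : ℂ) * τ)
        + ∑ i, (y i : ℂ) * (v i : ℂ)))) ∧
    ∑' x : Fin 4 → ℤ, cexp (2 * π * Complex.I * (quad A (fun i => (x i : ℝ) + v i) : ℂ) * τ) =
      (1 / (p : ℂ)) * (-1 / τ ^ 2) *
        ∑' y : Fin 4 → ℤ, cexp (2 * π * Complex.I * (-(quad A' (fun i => (y i : ℝ)) : ℂ) / ((p : ℂ) * τ)
          + ∑ i, (y i : ℂ) * (v i : ℂ)))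

/-- (GAUSS) the quadratic Gauss sum attached to `Q_A` modulo a prime `d ∤ 2p`:
for integers `b`, `c'` with `b p c' ≡ -1 (mod d)` and `y ∈ ℤ⁴`,
`∑_{g ∈ {0..d-1}⁴} e((b Q(g) + yᵀ g)/d) = d² e(c' Q'(y)/d)`. -/
def GaussStatement (p : ℕ) (A A' : Matrix (Fin 4) (Fin 4) ℤ) : Prop :=
  ∀ d : ℕ, d.Prime → ¬ d ∣ 2 * p → ∀ b c' : ℤ, (d : ℤ) ∣ b * p * c' + 1 → ∀ y : Fin 4 → ℤ,
    ∑ g : Fin 4 → Fin d,
        cexp (2 * π * Complex.I * (((b : ℂ) * (quad A (fun i => ((g i : ℕ) : ℝ)) : ℂ)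
          + ∑ i, (y i : ℂ) * ((g i : ℕ) : ℂ)) / (d : ℂ))) =
      (d : ℂ) ^ 2 * cexp (2 * π * Complex.I * ((c' : ℂ) * (quad A' (fun i => (y i : ℝ)) : ℂ) / (d : ℂ)))

end Fermat.Agent.S16.TH
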