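import Mathlib
import Fermat.Agent.S16.HeckeTrick.Defs

/-!
# S16 / HECKE-TRICK / Quad: elementary facts on `quad A v = ½ vᵀ A v`
(one worker; statements frozen by helper16; helper lemmas allowed above the theorems)

`A` symmetric with even diagonal.  All statements are finite algebra (expand the double sum over
`Fin 4`; `Fin.sum_univ_four`, `push_cast`, `ring`), plus `Complex.exp_add`,
`Complex.exp_int_mul_two_pi_mul_I` / `Complex.exp_eq_one_iff` for the exponential ones.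
-/

set_option autoImplicit false

open Complex
open scoped Real

namespace Fermat.Agent.S16.TH

/-- homogeneity: `Q(c v) = c² Q(v)`. -/
theorem quad_smul (A : Matrix (Fin 4) (Fin 4) ℤ) (c : ℝ) (v : Fin 4 → ℝ) :
    quad A (fun i => c * v i) = c ^ 2 * quad A v := by
  simp only [quad, Fin.sum_univ_four]
  ring

/-- integrality: `Q(x) ∈ ℤ` for `x ∈ ℤ⁴` (`A` symmetric, even diagonal). -/
theorem quad_int (A : Matrix (Fin 4) (Fin 4) ℤ) (hsymm : A.IsSymm) (heven : ∀ i, Even (A i i))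
    (x : Fin 4 → ℤ) : ∃ n : ℤ, quad A (fun i => (x i : ℝ)) = (n : ℝ) := by
  obtain ⟨k0, hk0⟩ := heven 0
  obtain ⟨k1, hk1⟩ := heven 1
  obtain ⟨k2, hk2⟩ := heven 2
  obtain ⟨k3, hk3⟩ := heven 3
  refine ⟨k0 * x 0 ^ 2 + k1 * x 1 ^ 2 + k2 * x 2 ^ 2 + k3 * x 3 ^ 2
    + A 0 1 * x 0 * x 1 + A 0 2 * x 0 * x 2 + A 0 3 * x 0 * x 3
    + A 1 2 * x 1 * x 2 + A 1 3 * x 1 * x 3 + A 2 3 * x 2 * x 3, ?_⟩
  simp only [quad, Fin.sum_univ_four]
  rw [hsymm.apply 0 1, hsymm.apply 0 2, hsymm.apply 0 3, hsymm.apply 1 2, hsymm.apply 1 3,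
    hsymm.apply 2 3, hk0, hk1, hk2, hk3]
  push_cast
  ring

/-- `Q(g + d y) = Q(g) + d n` for some integer `n` (`= yᵀ A g + d Q(y)`). -/
theorem quad_add_mul (A : Matrix (Fin 4) (Fin 4) ℤ) (hsymm : A.IsSymm)
    (heven : ∀ i, Even (A i i)) (d : ℤ) (g y : Fin 4 → ℤ) :
    ∃ n : ℤ, quad A (fun i => ((g i + d * y i : ℤ) : ℝ)) =
      quad A (fun i => (g i : ℝ)) + (d : ℝ) * (n : ℝ) := by
  obtain ⟨m, hm⟩ := quad_int A hsymm heven y
  refine ⟨(∑ i, ∑ j, A i j * y i * g j) + d * m, ?_⟩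
  have key : quad A (fun i => ((g i + d * y i : ℤ) : ℝ)) =
      quad A (fun i => (g i : ℝ)) + (d : ℝ) * (∑ i, ∑ j, (A i j : ℝ) * (y i : ℝ) * (g j : ℝ))
        + (d : ℝ) ^ 2 * quad A (fun i => (y i : ℝ)) := by
    simp only [quad, Fin.sum_univ_four]
    rw [hsymm.apply 0 1, hsymm.apply 0 2, hsymm.apply 0 3, hsymm.apply 1 2, hsymm.apply 1 3,
      hsymm.apply 2 3]
    push_cast
    ring
  rw [key, hm]
  push_cast
  ring

/-- termwise periodicity: `e(Q(x)(z + n)) = e(Q(x) z)` for `n ∈ ℤ`. -/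
theorem exp_quad_add_int (A : Matrix (Fin 4) (Fin 4) ℤ) (hsymm : A.IsSymm)
    (heven : ∀ i, Even (A i i)) (x : Fin 4 → ℤ) (z : ℂ) (n : ℤ) :
    cexp (2 * π * Complex.I * (quad A (fun i => (x i : ℝ)) : ℂ) * (z + n)) =
      cexp (2 * π * Complex.I * (quad A (fun i => (x i : ℝ)) : ℂ) * z) := by
  obtain ⟨m, hm⟩ := quad_int A hsymm heven x
  rw [hm]
  have h : 2 * π * Complex.I * (((m : ℝ) : ℂ)) * (z + n) =
      2 * π * Complex.I * (((m : ℝ) : ℂ)) * z + ((m * n : ℤ) : ℂ) * (2 * π * Complex.I) := by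
    push_cast
    ring
  rw [h, Complex.exp_add, Complex.exp_int_mul_two_pi_mul_I, mul_one]

/-- the termwise identity of the residue-class splitting (`x = g + d y`, `g ∈ {0..d-1}⁴`):
`e(Q(g + d y)(b/d + w)) = e(b Q(g)/d) · e(Q(y + g/d) · d² w)`. -/
theorem term_split (A : Matrix (Fin 4) (Fin 4) ℤ) (hsymm : A.IsSymm)
    (heven : ∀ i, Even (A i i)) (d : ℕ) (hd : d ≠ 0) (b : ℤ) (w : ℂ)
    (g : Fin 4 → Fin d) (y : Fin 4 → ℤ) :
    cexp (2 * π * Complex.I *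
        (quad A (fun i => ((((g i : ℕ) : ℤ) + (d : ℤ) * y i : ℤ) : ℝ)) : ℂ) * ((b : ℂ) / d + w)) =
      cexp (2 * π * Complex.I * ((b : ℂ) * (quad A (fun i => ((g i : ℕ) : ℝ)) : ℂ) / (d : ℂ))) *
        cexp (2 * π * Complex.I *
          (quad A (fun i => (y i : ℝ) + ((g i : ℕ) : ℝ) / (d : ℝ)) : ℂ) * ((d : ℂ) ^ 2 * w)) := by
  have hdR : (d : ℝ) ≠ 0 := Nat.cast_ne_zero.mpr hd
  have hdC : (d : ℂ) ≠ 0 := Nat.cast_ne_zero.mpr hd
  obtain ⟨n, hn⟩ := quad_add_mul A hsymm heven (d : ℤ) (fun i => ((g i : ℕ) : ℤ)) y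
  -- `Q(g + d y) = Q(g) + d n`
  have h1 : quad A (fun i => ((((g i : ℕ) : ℤ) + (d : ℤ) * y i : ℤ) : ℝ)) =
      quad A (fun i => ((g i : ℕ) : ℝ)) + (d : ℝ) * (n : ℝ) := by
    rw [hn]
    simp only [Int.cast_natCast]
  -- `Q(g + d y) = d² Q(y + g/d)`
  have h2 : quad A (fun i => ((((g i : ℕ) : ℤ) + (d : ℤ) * y i : ℤ) : ℝ)) =
      (d : ℝ) ^ 2 * quad A (fun i => (y i : ℝ) + ((g i : ℕ) : ℝ) / (d : ℝ)) := by
    rw [← quad_smul]
    congr 1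
    funext i
    push_cast
    field_simp
    ring
  have hX1 : ((quad A (fun i => ((((g i : ℕ) : ℤ) + (d : ℤ) * y i : ℤ) : ℝ)) : ℝ) : ℂ) =
      ((quad A (fun i => ((g i : ℕ) : ℝ)) : ℝ) : ℂ) + (d : ℂ) * (n : ℂ) := by
    rw [h1]
    push_cast
    ring
  have hX2 : ((quad A (fun i => ((((g i : ℕ) : ℤ) + (d : ℤ) * y i : ℤ) : ℝ)) : ℝ) : ℂ) =
      (d : ℂ) ^ 2 * ((quad A (fun i => (y i : ℝ) + ((g i : ℕ) : ℝ) / (d : ℝ)) : ℝ) : ℂ) := by
    rw [h2]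
    push_cast
    ring
  have e1 : 2 * π * Complex.I *
        ((quad A (fun i => ((((g i : ℕ) : ℤ) + (d : ℤ) * y i : ℤ) : ℝ)) : ℝ) : ℂ) * ((b : ℂ) / d) =
      2 * π * Complex.I * ((b : ℂ) * (quad A (fun i => ((g i : ℕ) : ℝ)) : ℂ) / (d : ℂ))
        + ((n * b : ℤ) : ℂ) * (2 * π * Complex.I) := by
    rw [hX1]
    push_cast
    field_simp
  have e2 : 2 * π * Complex.I *
        ((quad A (fun i => ((((g i : ℕ) : ℤ) + (d : ℤ) * y i : ℤ) : ℝ)) : ℝ) : ℂ) * w =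
      2 * π * Complex.I *
          (quad A (fun i => (y i : ℝ) + ((g i : ℕ) : ℝ) / (d : ℝ)) : ℂ) * ((d : ℂ) ^ 2 * w) := by
    rw [hX2]
    ring
  have hexp : 2 * π * Complex.I *
        (quad A (fun i => ((((g i : ℕ) : ℤ) + (d : ℤ) * y i : ℤ) : ℝ)) : ℂ) * ((b : ℂ) / d + w) =
      2 * π * Complex.I * ((b : ℂ) * (quad A (fun i => ((g i : ℕ) : ℝ)) : ℂ) / (d : ℂ))
        + 2 * π * Complex.I *
          (quad A (fun i => (y i : ℝ) + ((g i : ℕ) : ℝ) / (d : ℝ)) : ℂ) * ((d : ℂ) ^ 2 * w)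
        + ((n * b : ℤ) : ℂ) * (2 * π * Complex.I) := by
    rw [mul_add, e1, e2]
    ring
  rw [hexp, Complex.exp_add, Complex.exp_add, Complex.exp_int_mul_two_pi_mul_I, mul_one]

end Fermat.Agent.S16.TH
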