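import Mathlib

/-!
# S16 / HECKE-TRICK / Split: splitting a sum over `ℤ⁴` into residue classes modulo `d`
(one worker; statements frozen by helper16; helper lemmas allowed above the theorems)

`x = g + d y` with `g ∈ {0..d-1}⁴`, `y ∈ ℤ⁴`: the map `(g, y) ↦ g + d y` is a bijection
`(Fin 4 → Fin d) × (Fin 4 → ℤ) ≃ (Fin 4 → ℤ)` (coordinatewise `Int.emod`, `Int.ediv`; Mathlib has
`Int.divModEquiv`), then `Equiv.tsum_eq`, `Summable.tsum_prod` / `tsum_fintype`.
-/

set_option autoImplicit false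

namespace Fermat.Agent.S16.TH

namespace Split

/-- The bijection `(g, y) ↦ g + d y` between `{0..d-1}⁴ × ℤ⁴` and `ℤ⁴`. -/
theorem exists_equiv (d : ℕ) [NeZero d] :
    ∃ e : (Fin 4 → Fin d) × (Fin 4 → ℤ) ≃ (Fin 4 → ℤ),
      ∀ (g : Fin 4 → Fin d) (y : Fin 4 → ℤ),
        e (g, y) = fun i => ((g i : ℕ) : ℤ) + (d : ℤ) * y i := by
  have hd0 : (d : ℤ) ≠ 0 := Int.natCast_ne_zero.mpr (NeZero.ne d)
  have hdpos : (0 : ℤ) < (d : ℤ) := Int.natCast_pos.mpr (Nat.pos_of_ne_zero (NeZero.ne d))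
  have hlt : ∀ z : ℤ, (z % (d : ℤ)).toNat < d := by
    intro z
    have h1 : 0 ≤ z % (d : ℤ) := Int.emod_nonneg z hd0
    have h2 : z % (d : ℤ) < (d : ℤ) := Int.emod_lt_of_pos z hdpos
    omega
  refine ⟨{ toFun := fun p i => ((p.1 i : ℕ) : ℤ) + (d : ℤ) * p.2 i
            invFun := fun x => (fun i => ⟨(x i % (d : ℤ)).toNat, hlt (x i)⟩,
              fun i => x i / (d : ℤ))
            left_inv := ?_
            right_inv := ?_ }, fun g y => rfl⟩
  · rintro ⟨g, y⟩
    have hg : ∀ i, (((g i : ℕ) : ℤ) + (d : ℤ) * y i) % (d : ℤ) = ((g i : ℕ) : ℤ) := by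
      intro i
      rw [Int.add_mul_emod_self_left]
      exact Int.emod_eq_of_lt (Int.natCast_nonneg _) (Int.ofNat_lt.mpr (g i).isLt)
    have hy : ∀ i, (((g i : ℕ) : ℤ) + (d : ℤ) * y i) / (d : ℤ) = y i := by
      intro i
      rw [Int.add_mul_ediv_left _ _ hd0,
        Int.ediv_eq_zero_of_lt (Int.natCast_nonneg _) (Int.ofNat_lt.mpr (g i).isLt), zero_add]
    refine Prod.ext ?_ ?_
    · funext i
      apply Fin.ext
      show ((((g i : ℕ) : ℤ) + (d : ℤ) * y i) % (d : ℤ)).toNat = (g i : ℕ)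
      rw [hg i, Int.toNat_natCast]
    · funext i
      exact hy i
  · intro x
    funext i
    show (((x i % (d : ℤ)).toNat : ℕ) : ℤ) + (d : ℤ) * (x i / (d : ℤ)) = x i
    rw [Int.toNat_of_nonneg (Int.emod_nonneg (x i) hd0)]
    exact Int.emod_add_mul_ediv (x i) (d : ℤ)

end Split

/-- each residue class of a summable family is summable. -/
theorem summable_residue (d : ℕ) [NeZero d] (F : (Fin 4 → ℤ) → ℂ) (hF : Summable F)
    (g : Fin 4 → Fin d) :
    Summable (fun y : Fin 4 → ℤ => F (fun i => ((g i : ℕ) : ℤ) + (d : ℤ) * y i)) := by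
  obtain ⟨e, he⟩ := Split.exists_equiv d
  have h1 : Summable (fun p => F (e p)) := hF.comp_injective e.injective
  have h2 : Summable (fun y : Fin 4 → ℤ => F (e (g, y))) := h1.prod_factor g
  simpa only [he] using h2

/-- splitting into residue classes. -/
theorem tsum_residue_split (d : ℕ) [NeZero d] (F : (Fin 4 → ℤ) → ℂ) (hF : Summable F) :
    ∑' x, F x = ∑ g : Fin 4 → Fin d, ∑' y : Fin 4 → ℤ,
      F (fun i => ((g i : ℕ) : ℤ) + (d : ℤ) * y i) := by
  obtain ⟨e, he⟩ := Split.exists_equiv d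
  have h1 : Summable (fun p => F (e p)) := hF.comp_injective e.injective
  rw [← e.tsum_eq F, h1.tsum_prod, tsum_fintype]
  simp only [he]

end Fermat.Agent.S16.TH
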