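import Mathlib
import Fermat.Agent.S16.HeckeTrick.Defs
import Fermat.Agent.S16.HeckeTrick.Quad
import Fermat.Agent.S16.HeckeTrick.Split

/-!
# S16 / HECKE-TRICK / CoreSum: the heart of Hecke's trick, as an identity of complex series
(one worker; statement frozen by helper16; helper lemmas allowed above the theorem)

Notation `e(t) = exp(2π i t)`, `Q = quad A`, `Q' = quad A'`, `τ = d² w`.
1. (`tsum_residue_split`, summability from `hInv 0 (b/d + w)`; note `Im (b/d + w) = Im w`)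
   `∑_x e(Q(x)(b/d + w)) = ∑_{g : Fin 4 → Fin d} ∑_y e(Q(g + d y)(b/d + w))`.
2. (`term_split`) `e(Q(g + d y)(b/d + w)) = e(b Q(g)/d) · e(Q(y + g/d) τ)`.
3. (`hInv (g/d) τ`) `∑_y e(Q(y + g/d) τ) = (1/p)(-1/τ²) ∑_y e(-Q'(y)/(p τ) + ∑ y_i g_i/d)`.
4. swap the finite sum over `g` with the sum over `y` (`Summable.tsum_finsetSum`, summability of
   each `y`-family from `hInv`), and use (`hGauss d hd hd2p b c' hbc y`)
   `∑_g e(b Q(g)/d) e(∑ y_i g_i/d) = d² e(c' Q'(y)/d)`.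
5. phases: by `hrel`, `-1/(p τ) = -c'/d - 1/(p z)`, so
   `e(c' Q'(y)/d) · e(-Q'(y)/(p τ)) = e(-Q'(y)/(p z))` (no integrality needed).
6. (`hInv 0 z`) `∑_y e(-Q'(y)/(p z)) = -p z² ∑_x e(Q(x) z)`.
Result: `(1/p)(-1/τ²) d² (-p z²) Θ(z) = (z/(d w))² Θ(z)`.
-/

set_option autoImplicit false

open Complex
open scoped Real

namespace Fermat.Agent.S16.TH

namespace CoreSum

/-- `Im (b/d + w) = Im w`. -/
theorem im_shift (b : ℤ) (d : ℕ) (w : ℂ) : ((b : ℂ) / (d : ℂ) + w).im = w.im := by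
  have h : (b : ℂ) / (d : ℂ) = (((b : ℝ) / (d : ℝ) : ℝ) : ℂ) := by
    push_cast
    rfl
  rw [h, Complex.add_im, Complex.ofReal_im, zero_add]

/-- `Im (d² w) = d² Im w`. -/
theorem im_scale (d : ℕ) (w : ℂ) : ((d : ℂ) ^ 2 * w).im = (d : ℝ) ^ 2 * w.im := by
  have h : (d : ℂ) ^ 2 = (((d : ℝ) ^ 2 : ℝ) : ℂ) := by
    push_cast
    rfl
  rw [h, Complex.im_ofReal_mul]

theorem im_scale_pos (d : ℕ) (hd0 : d ≠ 0) (w : ℂ) (hw : 0 < w.im) :
    0 < ((d : ℂ) ^ 2 * w).im := by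
  rw [im_scale]
  have hd : (0 : ℝ) < (d : ℝ) := Nat.cast_pos.mpr (Nat.pos_of_ne_zero hd0)
  positivity

/-- The summand after applying the inversion formula to the residue class `g`:
`e(b Q(g)/d) · e(-Q'(y)/(p d² w) + ∑ y_i g_i/d)`. -/
noncomputable def T (p : ℕ) (A A' : Matrix (Fin 4) (Fin 4) ℤ) (d : ℕ) (b : ℤ) (w : ℂ)
    (g : Fin 4 → Fin d) (y : Fin 4 → ℤ) : ℂ :=
  cexp (2 * π * Complex.I * ((b : ℂ) * (quad A (fun i => ((g i : ℕ) : ℝ)) : ℂ) / (d : ℂ))) *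
    cexp (2 * π * Complex.I *
      (-(quad A' (fun i => (y i : ℝ)) : ℂ) / ((p : ℂ) * ((d : ℂ) ^ 2 * w))
        + ∑ i, (y i : ℂ) * ((((g i : ℕ) : ℝ) / (d : ℝ) : ℝ) : ℂ)))

/-- Summability of `y ↦ T g y` (from the inversion formula). -/
theorem summable_T {p : ℕ} (A A' : Matrix (Fin 4) (Fin 4) ℤ) (hInv : InvStatement p A A')
    (d : ℕ) (hd0 : d ≠ 0) (b : ℤ) (w : ℂ) (hw : 0 < w.im) (g : Fin 4 → Fin d) :
    Summable (T p A A' d b w g) := by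
  obtain ⟨-, hs, -⟩ := hInv (fun i => ((g i : ℕ) : ℝ) / (d : ℝ)) ((d : ℂ) ^ 2 * w)
    (im_scale_pos d hd0 w hw)
  exact hs.mul_left _

/-- Steps 2 and 3 for a fixed residue class `g`. -/
theorem class_sum {p : ℕ} (A A' : Matrix (Fin 4) (Fin 4) ℤ)
    (hsymm : A.IsSymm) (heven : ∀ i, Even (A i i)) (hInv : InvStatement p A A')
    (d : ℕ) (hd0 : d ≠ 0) (b : ℤ) (w : ℂ) (hw : 0 < w.im) (g : Fin 4 → Fin d) :
    ∑' y : Fin 4 → ℤ, cexp (2 * π * Complex.I *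
        (quad A (fun i => ((((g i : ℕ) : ℤ) + (d : ℤ) * y i : ℤ) : ℝ)) : ℂ)
          * ((b : ℂ) / (d : ℂ) + w)) =
      (1 / (p : ℂ)) * (-1 / ((d : ℂ) ^ 2 * w) ^ 2) * ∑' y : Fin 4 → ℤ, T p A A' d b w g y := by
  obtain ⟨-, -, hid⟩ := hInv (fun i => ((g i : ℕ) : ℝ) / (d : ℝ)) ((d : ℂ) ^ 2 * w)
    (im_scale_pos d hd0 w hw)
  rw [tsum_congr (fun y => term_split A hsymm heven d hd0 b w g y), tsum_mul_left, hid]
  unfold T
  rw [tsum_mul_left]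
  ring

/-- Step 4 (Gauss sum) and step 5 (phases) for a fixed `y`. -/
theorem gauss_phase {p : ℕ} (hp0 : p ≠ 0) (A A' : Matrix (Fin 4) (Fin 4) ℤ)
    (hGauss : GaussStatement p A A')
    (d : ℕ) (hd : d.Prime) (hd2p : ¬ d ∣ 2 * p) (b c' : ℤ)
    (hbc : (d : ℤ) ∣ b * p * c' + 1) (z w : ℂ) (hz0 : z ≠ 0)
    (hrel : -1 / ((d : ℂ) ^ 2 * w) = -((p : ℂ) * (c' : ℂ)) / (d : ℂ) - 1 / z)
    (y : Fin 4 → ℤ) :
    ∑ g : Fin 4 → Fin d, T p A A' d b w g y =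
      (d : ℂ) ^ 2 * cexp (2 * π * Complex.I *
        (-(quad A' (fun i => (y i : ℝ)) : ℂ) / ((p : ℂ) * z))) := by
  have hG := hGauss d hd hd2p b c' hbc y
  have hdC : (d : ℂ) ≠ 0 := Nat.cast_ne_zero.mpr hd.ne_zero
  have hpC : (p : ℂ) ≠ 0 := Nat.cast_ne_zero.mpr hp0
  have hterm : ∀ g : Fin 4 → Fin d, T p A A' d b w g y =
      cexp (2 * π * Complex.I *
          (-(quad A' (fun i => (y i : ℝ)) : ℂ) / ((p : ℂ) * ((d : ℂ) ^ 2 * w)))) *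
        cexp (2 * π * Complex.I * (((b : ℂ) * (quad A (fun i => ((g i : ℕ) : ℝ)) : ℂ)
          + ∑ i, (y i : ℂ) * ((g i : ℕ) : ℂ)) / (d : ℂ))) := by
    intro g
    unfold T
    rw [← Complex.exp_add, ← Complex.exp_add]
    congr 1
    have hs : ∑ i, (y i : ℂ) * ((((g i : ℕ) : ℝ) / (d : ℝ) : ℝ) : ℂ) =
        (∑ i, (y i : ℂ) * ((g i : ℕ) : ℂ)) / (d : ℂ) := by
      rw [Finset.sum_div]
      refine Finset.sum_congr rfl fun i _ => ?_
      push_cast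
      ring
    rw [hs]
    ring
  rw [Finset.sum_congr rfl (fun g _ => hterm g), ← Finset.mul_sum, hG, mul_left_comm,
    ← Complex.exp_add]
  congr 2
  have h1 : -(quad A' (fun i => (y i : ℝ)) : ℂ) / ((p : ℂ) * ((d : ℂ) ^ 2 * w)) =
      ((quad A' (fun i => (y i : ℝ)) : ℂ) / (p : ℂ)) * (-1 / ((d : ℂ) ^ 2 * w)) := by
    ring
  rw [h1, hrel]
  field_simp
  ring

end CoreSum

theorem core_sum {p : ℕ} (hp : p.Prime) (A A' : Matrix (Fin 4) (Fin 4) ℤ)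
    (hsymm : A.IsSymm) (heven : ∀ i, Even (A i i))
    (hInv : InvStatement p A A') (hGauss : GaussStatement p A A')
    (d : ℕ) (hd : d.Prime) (hd2p : ¬ d ∣ 2 * p) (b c' : ℤ)
    (hbc : (d : ℤ) ∣ b * p * c' + 1)
    (z w : ℂ) (hz : 0 < z.im) (hw : 0 < w.im)
    (hrel : -1 / ((d : ℂ) ^ 2 * w) = -((p : ℂ) * (c' : ℂ)) / (d : ℂ) - 1 / z) :
    ∑' x : Fin 4 → ℤ, cexp (2 * π * Complex.I * (quad A (fun i => (x i : ℝ)) : ℂ)
        * ((b : ℂ) / (d : ℂ) + w)) =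
      (z / ((d : ℂ) * w)) ^ 2 *
        ∑' x : Fin 4 → ℤ, cexp (2 * π * Complex.I * (quad A (fun i => (x i : ℝ)) : ℂ) * z) := by
  have hp0 : p ≠ 0 := hp.ne_zero
  have hd0 : d ≠ 0 := hd.ne_zero
  have : NeZero d := ⟨hd0⟩
  have hdC : (d : ℂ) ≠ 0 := Nat.cast_ne_zero.mpr hd0
  have hpC : (p : ℂ) ≠ 0 := Nat.cast_ne_zero.mpr hp0
  have hz0 : z ≠ 0 := by
    rintro rfl
    simp at hz
  have hw0 : w ≠ 0 := by
    rintro rfl
    simp at hw
  have him1 : 0 < ((b : ℂ) / (d : ℂ) + w).im := by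
    rw [CoreSum.im_shift]
    exact hw
  -- Step 1: residue classes
  obtain ⟨hsum1, -, -⟩ := hInv 0 ((b : ℂ) / (d : ℂ) + w) him1
  simp only [Pi.zero_apply, add_zero] at hsum1
  have h1 := tsum_residue_split d (fun x : Fin 4 → ℤ =>
    cexp (2 * π * Complex.I * (quad A (fun i => (x i : ℝ)) : ℂ) * ((b : ℂ) / (d : ℂ) + w))) hsum1
  beta_reduce at h1
  -- Step 6: inversion at `z`
  obtain ⟨-, -, h6⟩ := hInv 0 z hz
  simp only [Pi.zero_apply, add_zero, Complex.ofReal_zero, mul_zero,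
    Finset.sum_const_zero] at h6
  rw [h1, Finset.sum_congr rfl
      (fun g _ => CoreSum.class_sum A A' hsymm heven hInv d hd0 b w hw g),
    ← Finset.mul_sum,
    ← Summable.tsum_finsetSum (fun g _ => CoreSum.summable_T A A' hInv d hd0 b w hw g),
    tsum_congr (fun y => CoreSum.gauss_phase hp0 A A' hGauss d hd hd2p b c' hbc z w hz0 hrel y),
    tsum_mul_left, h6]
  field_simp

end Fermat.Agent.S16.TH
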