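import Mathlib
import Fermat.Agent.S16.HeckeTrick.Defs
import Fermat.Agent.S16.HeckeTrick.CoreSum

/-!
# S16 / HECKE-TRICK / Mobius: the transformation law for `γ ∈ Γ₀(p)` whose lower right entry is a
prime `d ∤ 2p`
(one worker; statement frozen by helper16; helper lemmas allowed above the theorem)

`γ = (a b; c d)`, `ad - bc = 1`, `p ∣ c`, `c' = c / p`.  `γ z = (a z + b)/(c z + d) = b/d + w` with
`w = z / (d (c z + d))` (`UpperHalfPlane.coe_specialLinearGroup_apply`,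
`ModularGroup.denom_apply`); `Im w = Im (γ z) > 0`;
`-1/(d² w) = -(c z + d)/(d z) = -c/d - 1/z = -(p c')/d - 1/z`; `d ∣ b p c' + 1 = bc + 1 = ad`;
`z/(d w) = c z + d = denom γ z`.  Then apply `core_sum` (unfold `theta`).
-/

set_option autoImplicit false

open Complex UpperHalfPlane CongruenceSubgroup
open scoped Real MatrixGroups ModularForm

namespace Fermat.Agent.S16.TH

namespace Mobius

/-- Pure algebra: `(a z + b)/(c z + d) - b/d = z / (d (c z + d))` when `a d - b c = 1`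
(`D` stands for the denominator `c z + d`). -/
theorem w_eq {a b c z d D w : ℂ} (hd0 : d ≠ 0) (hD0 : D ≠ 0) (hD : D = c * z + d)
    (hdet : a * d - b * c = 1) (hw : w = (a * z + b) / D - b / d) :
    w = z / (d * D) := by
  rw [hw]
  field_simp
  rw [hD]
  linear_combination z * hdet

/-- Pure algebra: `-1/(d² w) = -c/d - 1/z` for `w = z / (d (c z + d))`. -/
theorem rel {c z d D w : ℂ} (hd0 : d ≠ 0) (hz0 : z ≠ 0) (hD : D = c * z + d)
    (hw : w = z / (d * D)) : -1 / (d ^ 2 * w) = -c / d - 1 / z := by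
  rw [hw]
  field_simp
  rw [hD]
  ring

/-- Pure algebra: `z/(d w) = c z + d` for `w = z / (d (c z + d))`. -/
theorem zw {z d D w : ℂ} (hd0 : d ≠ 0) (hz0 : z ≠ 0) (hD0 : D ≠ 0) (hw : w = z / (d * D)) :
    z / (d * w) = D := by
  rw [hw]
  field_simp

end Mobius

theorem theta_transform_prime {p : ℕ} (hp : p.Prime) (A A' : Matrix (Fin 4) (Fin 4) ℤ)
    (hsymm : A.IsSymm) (heven : ∀ i, Even (A i i))
    (hInv : InvStatement p A A') (hGauss : GaussStatement p A A')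
    (γ : SL(2, ℤ)) (hγ : γ ∈ Gamma0 p) (d : ℕ) (hd : d.Prime) (hd2p : ¬ d ∣ 2 * p)
    (hγd : γ 1 1 = (d : ℤ)) (z : ℍ) :
    theta A (γ • z) = denom γ z ^ (2 : ℤ) * theta A z := by
  -- the entries of `γ`: `a = γ 0 0`, `b = γ 0 1`, `c = γ 1 0 = p * c'`, `γ 1 1 = d`
  have hdet : γ 0 0 * γ 1 1 - γ 0 1 * γ 1 0 = 1 := by
    have h := Matrix.SpecialLinearGroup.det_coe γ
    rwa [Matrix.det_fin_two] at h
  obtain ⟨c', hc'⟩ : (p : ℤ) ∣ γ 1 0 := by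
    rw [← ZMod.intCast_zmod_eq_zero_iff_dvd]
    exact Gamma0_mem.mp hγ
  have hdetZ : γ 0 0 * (d : ℤ) - γ 0 1 * ((p : ℤ) * c') = 1 := by
    rw [← hγd, ← hc']
    exact hdet
  have hdetC : ((γ 0 0 : ℤ) : ℂ) * (d : ℂ) - ((γ 0 1 : ℤ) : ℂ) * ((p : ℂ) * (c' : ℂ)) = 1 := by
    exact_mod_cast hdetZ
  have hbc : (d : ℤ) ∣ γ 0 1 * (p : ℤ) * c' + 1 := ⟨γ 0 0, by linear_combination -hdetZ⟩
  have hd0 : (d : ℂ) ≠ 0 := Nat.cast_ne_zero.mpr hd.ne_zero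
  have hz0 : (z : ℂ) ≠ 0 := UpperHalfPlane.ne_zero z
  -- the denominator `D = c z + d`
  obtain ⟨D, hD⟩ : ∃ D : ℂ, D = (p : ℂ) * (c' : ℂ) * (z : ℂ) + (d : ℂ) := ⟨_, rfl⟩
  have hden : denom γ z = D := by
    rw [ModularGroup.denom_apply, hγd, hc', hD]
    push_cast
    ring
  have hD0 : D ≠ 0 := by
    rw [← hden]
    exact UpperHalfPlane.denom_ne_zero _ z
  have hsmul : ((γ • z : ℍ) : ℂ) = (((γ 0 0 : ℤ) : ℂ) * (z : ℂ) + ((γ 0 1 : ℤ) : ℂ)) / D := by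
    have h := UpperHalfPlane.coe_specialLinearGroup_apply γ z
    rw [hγd, hc'] at h
    rw [h, hD]
    simp only [eq_intCast]
    push_cast
    ring
  -- the point `w = γ z - b / d`
  obtain ⟨w, hw⟩ : ∃ w : ℂ, w = ((γ • z : ℍ) : ℂ) - ((γ 0 1 : ℤ) : ℂ) / (d : ℂ) := ⟨_, rfl⟩
  have hγz : ((γ • z : ℍ) : ℂ) = ((γ 0 1 : ℤ) : ℂ) / (d : ℂ) + w := by
    rw [hw]
    ring
  have hw_im : 0 < w.im := by
    have h1 : (((γ 0 1 : ℤ) : ℂ) / (d : ℂ)).im = 0 := by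
      have h2 : ((γ 0 1 : ℤ) : ℂ) / (d : ℂ) = (((((γ 0 1 : ℤ) : ℝ) / (d : ℝ) : ℝ)) : ℂ) := by
        push_cast
        rfl
      rw [h2, Complex.ofReal_im]
    rw [hw, Complex.sub_im, h1, sub_zero, UpperHalfPlane.coe_im]
    exact (γ • z).im_pos
  have hw_eq : w = (z : ℂ) / ((d : ℂ) * D) := by
    rw [hsmul] at hw
    exact Mobius.w_eq hd0 hD0 hD hdetC hw
  have hrel : -1 / ((d : ℂ) ^ 2 * w) = -((p : ℂ) * (c' : ℂ)) / (d : ℂ) - 1 / (z : ℂ) :=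
    Mobius.rel hd0 hz0 hD hw_eq
  have hzw : (z : ℂ) / ((d : ℂ) * w) = D := Mobius.zw hd0 hz0 hD0 hw_eq
  -- Hecke's trick
  have hcore := core_sum hp A A' hsymm heven hInv hGauss d hd hd2p (γ 0 1) c' hbc (z : ℂ) w
    z.im_pos hw_im hrel
  unfold theta
  rw [hγz, hcore, hzw, hden, zpow_ofNat]

end Fermat.Agent.S16.TH
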