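import Mathlib

/-!
# S16 / HECKE-TRICK / PrimeShift: the Dirichlet step
(one worker; statement frozen by helper16; helper lemmas allowed above the theorem)

Dirichlet's theorem (`Nat.forall_exists_prime_gt_and_eq_mod` with modulus `c.natAbs`, residue
`(d : ZMod c.natAbs)`, a unit since `c`, `d` are coprime; lower bound `2 * p`): there is a prime
`q > 2p` (hence `q ∤ 2p`, as `p` may be assumed positive; for `p = 0` use `q ∤ 0`... note
`¬ q ∣ 2 * 0` is FALSE, so the statement needs `p ≠ 0`) with `(q : ZMod |c|) = d`, i.e.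
`|c| ∣ q - d`, i.e. `q = d + c t`.
-/

set_option autoImplicit false

namespace Fermat.Agent.S16.TH

theorem exists_prime_shift (p : ℕ) (hp0 : p ≠ 0) (c d : ℤ) (hc : c ≠ 0) (hcd : IsCoprime c d) :
    ∃ (t : ℤ) (q : ℕ), q.Prime ∧ ¬ q ∣ 2 * p ∧ d + c * t = (q : ℤ) := by
  have hc' : c.natAbs ≠ 0 := Int.natAbs_ne_zero.mpr hc
  have hcop : IsCoprime d (c.natAbs : ℤ) := by
    rw [Int.isCoprime_iff_gcd_eq_one, Int.gcd_comm]
    have h := Int.isCoprime_iff_gcd_eq_one.mp hcd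
    simpa [Int.gcd, Int.natAbs_abs] using h
  obtain ⟨q, hq, hqp, hmod⟩ := Nat.forall_exists_prime_gt_and_zmodEq (2 * p) hc' hcop
  have hdvd : c ∣ (q : ℤ) - d := Int.natAbs_dvd.mp hmod.symm.dvd
  obtain ⟨t, ht⟩ := hdvd
  refine ⟨t, q, hqp, ?_, by linarith⟩
  intro hdiv
  have := Nat.le_of_dvd (by omega) hdiv
  omega

end Fermat.Agent.S16.TH
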