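import Mathlib
import Fermat.Agent.S16.HeckeTrick.Defs
import Fermat.Agent.S16.HeckeTrick.Quad
import Fermat.Agent.S16.HeckeTrick.Mobius
import Fermat.Agent.S16.HeckeTrick.PrimeShift

/-!
# S16 / HECKE-TRICK / Dirichlet: reduction of the transformation law to prime lower-right entry
(one worker; statements frozen by helper16; helper lemmas allowed above the theorems)

* `theta_vadd_int`: `Θ(z + n) = Θ(z)` termwise (`exp_quad_add_int`, `tsum_congr`).
* `exists_prime_shift` (file PrimeShift.lean, another worker): a prime `q ∤ 2p` with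
  `q = d + c t`.
* `theta_transform_full`: `γ = (a b; c d) ∈ Γ₀(p)`.
  `c = 0`: `a = d = ±1`, `γ z = z + b d`, `denom² = 1`.
  `c ≠ 0`: `γ' := γ * T ^ t` has lower row `(c, d + c t) = (c, q)`, is in `Γ₀(p)`;
  `z' := (-t) +ᵥ z`, `γ • z = γ' • z'` (`modular_T_zpow_smul`), `denom γ' z' = c (z - t) + d + c t
  = denom γ z`, `Θ(z') = Θ(z)`.
-/

set_option autoImplicit false

open Complex UpperHalfPlane CongruenceSubgroup
open scoped Real MatrixGroups ModularForm

namespace Fermat.Agent.S16.TH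

theorem theta_vadd_int (A : Matrix (Fin 4) (Fin 4) ℤ) (hsymm : A.IsSymm)
    (heven : ∀ i, Even (A i i)) (n : ℤ) (z : ℍ) :
    theta A ((n : ℝ) +ᵥ z) = theta A z := by
  unfold theta
  refine tsum_congr fun x => ?_
  rw [UpperHalfPlane.coe_vadd, Complex.ofReal_intCast, add_comm]
  exact exp_quad_add_int A hsymm heven x (z : ℂ) n

theorem theta_transform_full {p : ℕ} (hp : p.Prime) (A A' : Matrix (Fin 4) (Fin 4) ℤ)
    (hsymm : A.IsSymm) (heven : ∀ i, Even (A i i))
    (hInv : InvStatement p A A') (hGauss : GaussStatement p A A')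
    (γ : SL(2, ℤ)) (hγ : γ ∈ Gamma0 p) (z : ℍ) :
    theta A (γ • z) = denom γ z ^ (2 : ℤ) * theta A z := by
  have hdet : γ 0 0 * γ 1 1 - γ 0 1 * γ 1 0 = 1 := by
    have h := γ.det_coe
    rwa [Matrix.det_fin_two] at h
  by_cases hc : γ 1 0 = 0
  · -- `c = 0`: `γ` acts as a translation, `d = ±1`
    obtain ⟨n, hn⟩ := ModularGroup.exists_eq_T_zpow_of_c_eq_zero hc
    have had : γ 0 0 * γ 1 1 = 1 := by
      rw [hc] at hdet
      linarith
    have hd : ((γ 1 1 : ℤ) : ℂ) ^ (2 : ℤ) = 1 := by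
      rcases Int.eq_one_or_neg_one_of_mul_eq_one' had with ⟨-, hd⟩ | ⟨-, hd⟩ <;> simp [hd]
    rw [hn z, UpperHalfPlane.modular_T_zpow_smul, theta_vadd_int A hsymm heven,
      ModularGroup.denom_apply, hc, Int.cast_zero, zero_mul, zero_add, hd, one_mul]
  · -- `c ≠ 0`: shift to a prime lower right entry
    have hcd : IsCoprime (γ 1 0) (γ 1 1) := ⟨-γ 0 1, γ 0 0, by linarith⟩
    obtain ⟨t, q, hq, hq2p, hqt⟩ := exists_prime_shift p hp.ne_zero (γ 1 0) (γ 1 1) hc hcd
    obtain ⟨γ', hγ'def⟩ : ∃ γ' : SL(2, ℤ), γ' = γ * ModularGroup.T ^ t := ⟨_, rfl⟩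
    obtain ⟨z', hz'def⟩ : ∃ z' : ℍ, z' = ((-t : ℤ) : ℝ) +ᵥ z := ⟨_, rfl⟩
    have h10 : γ' 1 0 = γ 1 0 := by
      rw [hγ'def]
      simp [ModularGroup.coe_T_zpow, Matrix.mul_apply, Fin.sum_univ_two]
    have h11 : γ' 1 1 = γ 1 0 * t + γ 1 1 := by
      rw [hγ'def]
      simp [ModularGroup.coe_T_zpow, Matrix.mul_apply, Fin.sum_univ_two]
    have hγ' : γ' ∈ Gamma0 p := by
      rw [Gamma0_mem] at hγ ⊢
      rw [h10]
      exact hγ
    have hγ'q : γ' 1 1 = (q : ℤ) := by
      rw [h11, ← hqt]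
      ring
    have hTz : ModularGroup.T ^ t • z' = z := by
      rw [hz'def, UpperHalfPlane.modular_T_zpow_smul, vadd_vadd, Int.cast_neg, add_neg_cancel,
        zero_vadd]
    have hsmul : γ • z = γ' • z' := by
      rw [hγ'def, mul_smul, hTz]
    have hden : denom γ' z' = denom γ z := by
      rw [ModularGroup.denom_apply, ModularGroup.denom_apply, h10, h11, hz'def,
        UpperHalfPlane.coe_vadd]
      push_cast
      ring
    have hth : theta A z' = theta A z := by
      rw [hz'def]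
      exact theta_vadd_int A hsymm heven (-t) z
    rw [hsmul, theta_transform_prime hp A A' hsymm heven hInv hGauss γ' hγ' q hq hq2p hγ'q z',
      hden, hth]

end Fermat.Agent.S16.TH
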