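import Mathlib

/-!
# S16 / HECKE-TRICK / Coset: coset representatives of `Γ₀(p)` in `SL(2,ℤ)`
(one worker; statement frozen by helper16; helper lemmas allowed above the theorem)

`γ = (a b; c d) ∉ Γ₀(p)` means `p ∤ c` (`CongruenceSubgroup.Gamma0_mem`); choose `j : ℤ` with
`c j ≡ d (mod p)` (`c` is a unit mod the prime `p`); then
`γ₀ := γ * (S * T ^ j)⁻¹ = (a j - b, a; c j - d, c)` is in `Γ₀(p)` and `γ = γ₀ * S * T ^ j`.
(`ModularGroup.S = !![0, -1; 1, 0]`, `ModularGroup.coe_T_zpow : ↑(T ^ n) = !![1, n; 0, 1]`.)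
-/

set_option autoImplicit false

open CongruenceSubgroup
open scoped MatrixGroups

namespace Fermat.Agent.S16.TH

namespace Coset

/-- The lower-left entry of `γ * (S * T ^ j)⁻¹` is `c j - d`. -/
theorem entry (γ : SL(2, ℤ)) (j : ℤ) :
    (γ * (ModularGroup.S * ModularGroup.T ^ j)⁻¹) 1 0 = γ 1 0 * j - γ 1 1 := by
  rw [Matrix.SpecialLinearGroup.coe_mul, Matrix.SpecialLinearGroup.coe_inv,
    Matrix.SpecialLinearGroup.coe_mul, ModularGroup.coe_S, ModularGroup.coe_T_zpow]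
  simp [Matrix.adjugate_fin_two, Matrix.mul_apply, Fin.sum_univ_two]
  ring

end Coset

theorem exists_coset_rep {p : ℕ} (hp : p.Prime) (γ : SL(2, ℤ)) (hγ : γ ∉ Gamma0 p) :
    ∃ (γ₀ : SL(2, ℤ)) (j : ℤ), γ₀ ∈ Gamma0 p ∧ γ = γ₀ * ModularGroup.S * ModularGroup.T ^ j := by
  have : Fact p.Prime := ⟨hp⟩
  rw [Gamma0_mem] at hγ
  obtain ⟨j, hj⟩ := ZMod.intCast_surjective ((γ 1 1 : ZMod p) * (γ 1 0 : ZMod p)⁻¹)
  refine ⟨γ * (ModularGroup.S * ModularGroup.T ^ j)⁻¹, j, ?_, ?_⟩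
  · rw [Gamma0_mem, Coset.entry]
    push_cast
    rw [hj, mul_comm, mul_assoc, inv_mul_cancel₀ hγ, mul_one, sub_self]
  · rw [mul_assoc, inv_mul_cancel_right]

end Fermat.Agent.S16.TH
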