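import Mathlib
import Fermat.Agent.S16.HeckeTrick.Coset

/-!
# S16 / HECKE-TRICK / Cusps: coset representatives of `Γ₀(p)` and boundedness of all translates
(one worker; statements frozen by helper16; helper lemmas allowed above the theorems)

* `exists_coset_rep` (file Coset.lean, another worker): `γ ∉ Γ₀(p)` ⇒ `γ = γ₀ * S * T ^ j`,
  `γ₀ ∈ Γ₀(p)`.
* `isBoundedAtImInfty_slash_T_zpow`: `(f ∣[k] T ^ j) z = f (j +ᵥ z)` (`ModularForm.SL_slash_apply`,
  `modular_T_zpow_smul`, `denom (T ^ j) z = 1`), and `Im (j +ᵥ z) = Im z`.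
* `isBoundedAtImInfty_slash_of`: for a function `f` with `f ∣[k] γ₀ = f` for `γ₀ ∈ Γ₀(p)`, bounded
  at `i∞` together with `f ∣[k] S`: every translate `f ∣[k] γ` is bounded at `i∞`
  (`SlashAction.slash_mul`).
-/

set_option autoImplicit false

open Complex UpperHalfPlane CongruenceSubgroup
open scoped Real MatrixGroups ModularForm

namespace Fermat.Agent.S16.TH

namespace Cusps

/-- `(f ∣[k] T ^ j) z = f (j +ᵥ z)`. -/
theorem slash_T_zpow_apply (f : ℍ → ℂ) (k j : ℤ) (z : ℍ) :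
    (f ∣[k] (ModularGroup.T ^ j)) z = f ((j : ℝ) +ᵥ z) := by
  rw [ModularForm.SL_slash_apply, UpperHalfPlane.modular_T_zpow_smul]
  have hden : denom (ModularGroup.T ^ j : SL(2, ℤ)) z = 1 := by
    rw [ModularGroup.denom_apply, ModularGroup.coe_T_zpow]
    simp
  rw [hden, one_zpow, mul_one]

end Cusps

theorem isBoundedAtImInfty_slash_T_zpow (f : ℍ → ℂ) (k : ℤ) (j : ℤ)
    (hf : IsBoundedAtImInfty f) : IsBoundedAtImInfty (f ∣[k] (ModularGroup.T ^ j)) := by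
  rw [UpperHalfPlane.isBoundedAtImInfty_iff] at hf ⊢
  obtain ⟨M, A, h⟩ := hf
  refine ⟨M, A, fun z hz => ?_⟩
  rw [Cusps.slash_T_zpow_apply]
  apply h
  rw [UpperHalfPlane.vadd_im]
  exact hz

theorem isBoundedAtImInfty_slash_of {p : ℕ} (hp : p.Prime) (f : ℍ → ℂ) (k : ℤ)
    (hinv : ∀ γ₀ ∈ Gamma0 p, f ∣[k] γ₀ = f)
    (hf : IsBoundedAtImInfty f) (hfS : IsBoundedAtImInfty (f ∣[k] ModularGroup.S))
    (γ : SL(2, ℤ)) : IsBoundedAtImInfty (f ∣[k] γ) := by
  by_cases hγ : γ ∈ Gamma0 p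
  · rw [hinv γ hγ]
    exact hf
  · obtain ⟨γ₀, j, hγ₀, rfl⟩ := exists_coset_rep hp γ hγ
    rw [SlashAction.slash_mul, SlashAction.slash_mul, hinv γ₀ hγ₀]
    exact isBoundedAtImInfty_slash_T_zpow _ k j hfS

end Fermat.Agent.S16.TH
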