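import Mathlib
import Fermat.Prelude.Def_FLTPrelim_Modularity

/-!
# S16 / HECKE-TRICK / QExp: a function on `ℍ` given by a convergent `q`-series
(one worker; statements frozen by helper16; helper lemmas allowed above the theorems)

`f z = ∑ r n * exp(2π i n z)` (pointwise `HasSum`) for all `z ∈ ℍ`.
* `mdiff_of_hasSum_q`: the power series `∑ r n qⁿ` is summable at every `q` with `0 < |q| < 1`
  (each such `q` is `exp(2π i z)`, `z ∈ ℍ`: `Function.Periodic.invQParam`), hence has radius `≥ 1`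
  (`FormalMultilinearSeries.le_radius_of_summable` for `FormalMultilinearSeries.ofScalars ℂ r`),
  its sum `F` is analytic on the unit ball (`FormalMultilinearSeries.hasFPowerSeriesOnBall`), and
  `f = F ∘ (z ↦ exp(2π i z))` on `ℍ`; `UpperHalfPlane.mdifferentiable_iff`.
* `isBoundedAtImInfty_of_hasSum_q`: Mathlib `UpperHalfPlane.isBoundedAtImInfty_of_hasSum_qExpansion`
  (`𝕢 1 z = exp(2π i z / 1)`, `Function.Periodic.qParam`).
* `qCoeff_of_hasSum_q`: Mathlib `UpperHalfPlane.qExpansion_coeff_unique` /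
  `ModularFormClass.qExpansion_coeff_unique`; `ModularFormClass.qCoeff f n = (qExpansion 1 f).coeff n`
  (Prelude definition).  Needs analyticity of `cuspFunction 1 f` at `0`: from periodicity,
  holomorphy and boundedness (`UpperHalfPlane.analyticAt_cuspFunction_zero`), periodicity being
  termwise.
-/

set_option autoImplicit false

open Complex UpperHalfPlane
open scoped Real Manifold

namespace Fermat.Agent.S16.TH

namespace QExp

theorem term_eq (r : ℕ → ℂ) (n : ℕ) (z : ℂ) :
    r n * cexp (2 * π * Complex.I * n * z) = r n • Function.Periodic.qParam (1 : ℝ) z ^ n := by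
  rw [smul_eq_mul, Function.Periodic.qParam, ← Complex.exp_nat_mul]
  congr 2
  push_cast
  ring

theorem hasSum' (f : ℍ → ℂ) (r : ℕ → ℂ)
    (hq : ∀ z : ℍ, HasSum (fun n : ℕ => r n * cexp (2 * π * Complex.I * n * z)) (f z)) (τ : ℍ) :
    HasSum (fun m : ℕ => r m • Function.Periodic.qParam (1 : ℝ) (τ : ℂ) ^ m) (f τ) := by
  have h := hq τ
  convert h using 2 with n
  exact (term_eq r n τ).symm

theorem term_norm (r : ℕ → ℂ) (n : ℕ) (z : ℂ) :
    ‖r n * cexp (2 * π * Complex.I * n * z)‖ = ‖r n‖ * Real.exp (-(2 * π * z.im) * (n : ℝ)) := by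
  rw [norm_mul, Complex.norm_exp]
  congr 2
  have h : (2 * (π : ℂ) * Complex.I * (n : ℂ) * z) =
      (((2 * π * (n : ℝ) : ℝ) : ℂ) * z) * Complex.I := by
    push_cast; ring
  rw [h, Complex.mul_I_re, Complex.im_ofReal_mul]
  ring

theorem diffOn_aux (f : ℍ → ℂ) (r : ℕ → ℂ)
    (hq : ∀ z : ℍ, HasSum (fun n : ℕ => r n * cexp (2 * π * Complex.I * n * z)) (f z))
    {c : ℝ} (hc : 0 < c) :
    DifferentiableOn ℂ (fun w : ℂ => ∑' n : ℕ, r n * cexp (2 * π * Complex.I * n * w))
      {z : ℂ | c < z.im} := by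
  have hopen : IsOpen {z : ℂ | c < z.im} := isOpen_lt continuous_const Complex.continuous_im
  have hcpos : 0 < ((c : ℂ) * Complex.I).im := by simpa using hc
  have hsum : Summable (fun n : ℕ => ‖r n‖ * Real.exp (-(2 * π * c) * (n : ℝ))) := by
    have h := (hq ⟨(c : ℂ) * Complex.I, hcpos⟩).summable.norm
    refine h.congr (fun n => ?_)
    rw [UpperHalfPlane.coe_mk, term_norm]
    simp
  refine differentiableOn_tsum_of_summable_norm hsum (fun n => ?_) hopen (fun n w hw => ?_)
  · exact ((differentiable_const _).mul (Complex.differentiable_exp.comp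
      ((differentiable_const _).mul differentiable_id))).differentiableOn
  · rw [term_norm]
    apply mul_le_mul_of_nonneg_left _ (norm_nonneg _)
    apply Real.exp_le_exp.mpr
    have h1 : (0 : ℝ) ≤ (n : ℝ) := Nat.cast_nonneg n
    have h2 : c ≤ w.im := le_of_lt hw
    have h3 : 2 * π * c ≤ 2 * π * w.im :=
      mul_le_mul_of_nonneg_left h2 (by positivity)
    nlinarith [mul_le_mul_of_nonneg_right h3 h1]

theorem diffOn (f : ℍ → ℂ) (r : ℕ → ℂ)
    (hq : ∀ z : ℍ, HasSum (fun n : ℕ => r n * cexp (2 * π * Complex.I * n * z)) (f z)) :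
    DifferentiableOn ℂ (fun w : ℂ => ∑' n : ℕ, r n * cexp (2 * π * Complex.I * n * w))
      {z : ℂ | 0 < z.im} := by
  intro z hz
  have hz' : (0 : ℝ) < z.im := hz
  have hopen : IsOpen {w : ℂ | z.im / 2 < w.im} :=
    isOpen_lt continuous_const Complex.continuous_im
  have hmem : z ∈ {w : ℂ | z.im / 2 < w.im} := by
    show z.im / 2 < z.im
    linarith
  exact ((diffOn_aux f r hq (half_pos hz')).differentiableAt
    (hopen.mem_nhds hmem)).differentiableWithinAt

theorem periodic (f : ℍ → ℂ) (r : ℕ → ℂ)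
    (hq : ∀ z : ℍ, HasSum (fun n : ℕ => r n * cexp (2 * π * Complex.I * n * z)) (f z)) :
    Function.Periodic (f ∘ ofComplex) ((1 : ℝ) : ℂ) := by
  intro w
  by_cases hw : 0 < w.im
  · have hw1 : 0 < (w + ((1 : ℝ) : ℂ)).im := by simpa using hw
    simp only [Function.comp_apply, ofComplex_apply_of_im_pos hw1, ofComplex_apply_of_im_pos hw]
    refine (hq ⟨_, hw1⟩).unique ?_
    have h := hq ⟨w, hw⟩
    convert h using 2 with n
    rw [UpperHalfPlane.coe_mk, UpperHalfPlane.coe_mk]
    have e : 2 * (π : ℂ) * Complex.I * (n : ℂ) * (w + ((1 : ℝ) : ℂ)) =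
        2 * (π : ℂ) * Complex.I * (n : ℂ) * w + (n : ℂ) * (2 * π * Complex.I) := by
      push_cast; ring
    rw [e, Complex.exp_add, Complex.exp_nat_mul_two_pi_mul_I, mul_one]
  · have hw' : w.im ≤ 0 := not_lt.mp hw
    have hw1 : (w + ((1 : ℝ) : ℂ)).im ≤ 0 := by simpa using hw'
    simp only [Function.comp_apply, ofComplex_apply_of_im_nonpos hw1,
      ofComplex_apply_of_im_nonpos hw']

end QExp

theorem mdiff_of_hasSum_q (f : ℍ → ℂ) (r : ℕ → ℂ)
    (hq : ∀ z : ℍ, HasSum (fun n : ℕ => r n * cexp (2 * π * Complex.I * n * z)) (f z)) :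
    MDiff f := by
  rw [UpperHalfPlane.mdifferentiable_iff]
  refine (QExp.diffOn f r hq).congr (fun z hz => ?_)
  have hz' : (0 : ℝ) < z.im := hz
  simp only [Function.comp_apply]
  rw [ofComplex_apply_of_im_pos hz']
  exact ((hq ⟨z, hz'⟩).tsum_eq).symm

theorem isBoundedAtImInfty_of_hasSum_q (f : ℍ → ℂ) (r : ℕ → ℂ)
    (hq : ∀ z : ℍ, HasSum (fun n : ℕ => r n * cexp (2 * π * Complex.I * n * z)) (f z)) :
    IsBoundedAtImInfty f :=
  UpperHalfPlane.isBoundedAtImInfty_of_hasSum_qExpansion one_pos (QExp.hasSum' f r hq)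

theorem qCoeff_of_hasSum_q (f : ℍ → ℂ) (r : ℕ → ℂ)
    (hq : ∀ z : ℍ, HasSum (fun n : ℕ => r n * cexp (2 * π * Complex.I * n * z)) (f z)) (n : ℕ) :
    ModularFormClass.qCoeff f n = r n := by
  have hhol := mdiff_of_hasSum_q f r hq
  have hbdd := isBoundedAtImInfty_of_hasSum_q f r hq
  have hper := QExp.periodic f r hq
  have han := UpperHalfPlane.analyticAt_cuspFunction_zero one_pos hper hhol hbdd
  have h := UpperHalfPlane.qExpansion_coeff_unique (ContinuousMap.mk f hhol.continuous) one_pos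
    han (QExp.hasSum' f r hq) n
  exact h.symm

end Fermat.Agent.S16.TH
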