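import Mathlib
import Fermat.Agent.S16.HeckeTrick.Defs

/-!
# S16 / HECKE-TRICK / SlashS: `Θ ∣ S` and its boundedness at `i∞`
(one worker; statements frozen by helper16; helper lemmas allowed above the theorems)

* `theta_slash_S`: `(Θ ∣[2] S)(z) = Θ(-1/z) z⁻²` (`ModularForm.SL_slash_apply`, `modular_S_smul`,
  `ModularGroup.denom_S`), and `hInv 0 (-1/z)` gives
  `Θ(-1/z) = (1/p)(-z²) ∑_y e(Q'(y) z / p)`.
* `summable_dual`: `hInv 0 (-p/z)`... more precisely use `hInv 0 τ` with `τ = -1/z`, whose second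
  component is the summability of `y ↦ e(-Q'(y)/(p τ)) = e(Q'(y) z / p)`.
* `isBoundedAtImInfty_dual`: for `Im z ≥ 1`, `‖∑_y e(Q'(y) z/p)‖ ≤ ∑_y exp(-2π Q'(y) Im z / p)
  ≤ ∑_y exp(-2π Q'(y)/p)` (`hpos'`; `norm_tsum_le_tsum_norm`, `Summable.tsum_le_tsum`;
  `Complex.norm_exp`), the last sum being finite by `summable_dual` at `z = i`.
  `IsBoundedAtImInfty f` unfolds via `UpperHalfPlane.isBoundedAtImInfty_iff`.
-/

set_option autoImplicit false

open Complex UpperHalfPlane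
open scoped Real MatrixGroups ModularForm

namespace Fermat.Agent.S16.TH

namespace SlashS

theorem term_norm (q : ℝ) (z : ℂ) (p : ℕ) :
    ‖cexp (2 * π * Complex.I * (q : ℂ) * z / (p : ℂ))‖ =
      Real.exp (-(2 * π * q / p) * z.im) := by
  rw [Complex.norm_exp]
  congr 1
  have h : (2 * (π : ℂ) * Complex.I * (q : ℂ) * z / (p : ℂ)) =
      (((2 * π * q / p : ℝ) : ℂ) * z) * Complex.I := by
    push_cast; ring
  rw [h, Complex.mul_I_re, Complex.im_ofReal_mul]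
  ring

theorem im_neg_inv_pos {z : ℂ} (hz : 0 < z.im) : 0 < (-1 / z).im := by
  have hz0 : z ≠ 0 := by
    rintro rfl
    simp at hz
  have hn : 0 < Complex.normSq z := Complex.normSq_pos.mpr hz0
  rw [neg_div, Complex.neg_im, one_div, Complex.inv_im, neg_div, neg_neg]
  exact div_pos hz hn

/-- the dual term of `InvStatement` at `v = 0`, `τ = -1/z`. -/
theorem dual_term_eq {p : ℕ} (hp : p.Prime) (q : ℝ) (y : Fin 4 → ℤ) {z : ℂ} (hz0 : z ≠ 0) :
    cexp (2 * π * Complex.I * (-(q : ℂ) / ((p : ℂ) * (-1 / z))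
        + ∑ i, (y i : ℂ) * ((0 : ℝ) : ℂ))) =
      cexp (2 * π * Complex.I * (q : ℂ) * z / (p : ℂ)) := by
  have hp0 : (p : ℂ) ≠ 0 := by exact_mod_cast hp.ne_zero
  congr 1
  simp only [Complex.ofReal_zero, mul_zero, Finset.sum_const_zero, add_zero]
  field_simp

end SlashS

theorem summable_dual {p : ℕ} (hp : p.Prime) (A A' : Matrix (Fin 4) (Fin 4) ℤ)
    (hInv : InvStatement p A A') (z : ℂ) (hz : 0 < z.im) :
    Summable (fun y : Fin 4 → ℤ =>
      cexp (2 * π * Complex.I * (quad A' (fun i => (y i : ℝ)) : ℂ) * z / (p : ℂ))) := by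
  have hz0 : z ≠ 0 := by
    rintro rfl
    simp at hz
  obtain ⟨-, h2, -⟩ := hInv (fun _ => 0) (-1 / z) (SlashS.im_neg_inv_pos hz)
  refine h2.congr (fun y => ?_)
  exact SlashS.dual_term_eq hp (quad A' (fun i => (y i : ℝ))) y hz0

theorem theta_slash_S {p : ℕ} (hp : p.Prime) (A A' : Matrix (Fin 4) (Fin 4) ℤ)
    (hInv : InvStatement p A A') (z : ℍ) :
    (theta A ∣[(2 : ℤ)] ModularGroup.S) z = -(1 / (p : ℂ)) *
      ∑' y : Fin 4 → ℤ, cexp (2 * π * Complex.I * (quad A' (fun i => (y i : ℝ)) : ℂ)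
        * (z : ℂ) / (p : ℂ)) := by
  have hz0 : (z : ℂ) ≠ 0 := ne_zero z
  have hp0 : (p : ℂ) ≠ 0 := by exact_mod_cast hp.ne_zero
  obtain ⟨-, -, h3⟩ := hInv (fun _ => 0) (-1 / (z : ℂ)) (SlashS.im_neg_inv_pos z.im_pos)
  have hS : ((ModularGroup.S • z : ℍ) : ℂ) = -1 / (z : ℂ) := by
    rw [UpperHalfPlane.modular_S_smul, UpperHalfPlane.coe_mk, neg_div, one_div, inv_neg]
  have hL : theta A (ModularGroup.S • z) =
      ∑' x : Fin 4 → ℤ, cexp (2 * π * Complex.I *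
        (quad A (fun i => (x i : ℝ) + (0 : ℝ)) : ℂ) * (-1 / (z : ℂ))) := by
    rw [theta, hS]
    refine tsum_congr (fun x => ?_)
    simp only [add_zero]
  have hR : ∑' y : Fin 4 → ℤ, cexp (2 * π * Complex.I *
      (-(quad A' (fun i => (y i : ℝ)) : ℂ) / ((p : ℂ) * (-1 / (z : ℂ)))
        + ∑ i, (y i : ℂ) * ((0 : ℝ) : ℂ))) =
      ∑' y : Fin 4 → ℤ, cexp (2 * π * Complex.I * (quad A' (fun i => (y i : ℝ)) : ℂ)
        * (z : ℂ) / (p : ℂ)) :=
    tsum_congr (fun y => SlashS.dual_term_eq hp (quad A' (fun i => (y i : ℝ))) y hz0)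
  rw [ModularForm.SL_slash_apply, ModularGroup.denom_S, hL, h3, hR]
  rw [zpow_neg, show ((z : ℂ) ^ (2 : ℤ)) = (z : ℂ) ^ 2 from by norm_cast]
  field_simp

theorem isBoundedAtImInfty_dual {p : ℕ} (hp : p.Prime) (A A' : Matrix (Fin 4) (Fin 4) ℤ)
    (hpos' : ∀ y : Fin 4 → ℤ, 0 ≤ quad A' (fun i => (y i : ℝ)))
    (hInv : InvStatement p A A') :
    IsBoundedAtImInfty (fun z : ℍ => ∑' y : Fin 4 → ℤ,
      cexp (2 * π * Complex.I * (quad A' (fun i => (y i : ℝ)) : ℂ) * (z : ℂ) / (p : ℂ))) := by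
  rw [UpperHalfPlane.isBoundedAtImInfty_iff]
  have hI : 0 < (Complex.I).im := by simp
  have hsI := (summable_dual hp A A' hInv Complex.I hI).norm
  refine ⟨∑' y : Fin 4 → ℤ, ‖cexp (2 * π * Complex.I * (quad A' (fun i => (y i : ℝ)) : ℂ)
    * Complex.I / (p : ℂ))‖, 1, fun z hz => ?_⟩
  have hsz := (summable_dual hp A A' hInv (z : ℂ) z.im_pos).norm
  have hp0 : (0 : ℝ) < (p : ℝ) := by exact_mod_cast hp.pos
  calc ‖∑' y : Fin 4 → ℤ, cexp (2 * π * Complex.I * (quad A' (fun i => (y i : ℝ)) : ℂ)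
          * (z : ℂ) / (p : ℂ))‖
      ≤ ∑' y : Fin 4 → ℤ, ‖cexp (2 * π * Complex.I * (quad A' (fun i => (y i : ℝ)) : ℂ)
          * (z : ℂ) / (p : ℂ))‖ := norm_tsum_le_tsum_norm hsz
    _ ≤ ∑' y : Fin 4 → ℤ, ‖cexp (2 * π * Complex.I * (quad A' (fun i => (y i : ℝ)) : ℂ)
          * Complex.I / (p : ℂ))‖ := by
        refine hsz.tsum_le_tsum (fun y => ?_) hsI
        rw [SlashS.term_norm, SlashS.term_norm]
        apply Real.exp_le_exp.mpr
        have h1 : 0 ≤ 2 * π * quad A' (fun i => (y i : ℝ)) / p :=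
          div_nonneg (mul_nonneg (by positivity) (hpos' y)) hp0.le
        have h2 : (1 : ℝ) ≤ (z : ℂ).im := hz
        simp only [Complex.I_im]
        nlinarith [mul_le_mul_of_nonneg_left h2 h1]

end Fermat.Agent.S16.TH
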