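import Mathlib
import Fermat.Agent.S16.HeckeTrick.Defs
import Fermat.Agent.S16.HeckeTrick.Dirichlet
import Fermat.Agent.S16.HeckeTrick.Cusps
import Fermat.Agent.S16.HeckeTrick.SlashS
import Fermat.Agent.S16.HeckeTrick.QExp
import Fermat.Agent.S20.Basics.Constr

/-!
# S16 / HECKE-TRICK / Package: `Θ_A` as a modular form of weight 2 on `Γ₀(p)` (assembly, helper16)
-/

set_option autoImplicit false

open Complex UpperHalfPlane CongruenceSubgroup
open scoped Real MatrixGroups ModularForm Manifold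

namespace Fermat.Agent.S16.TH

/-- The function-level slash identity follows from the pointwise transformation law. -/
theorem slash_eq_of_law' (K : ℤ) (F : ℍ → ℂ) (γ : SL(2, ℤ))
    (h : ∀ z : ℍ, F (γ • z) = denom γ z ^ K * F z) : F ∣[K] γ = F := by
  ext z
  have hd : denom γ z ^ K ≠ 0 := zpow_ne_zero K (denom_ne_zero γ z)
  rw [ModularForm.SL_slash_apply, h z, zpow_neg]
  field_simp

theorem exists_thetaForm_aux {p : ℕ} (hp : p.Prime) (A A' : Matrix (Fin 4) (Fin 4) ℤ)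
    (hsymm : A.IsSymm) (heven : ∀ i, Even (A i i))
    (hpos' : ∀ y : Fin 4 → ℤ, 0 ≤ quad A' (fun i => (y i : ℝ)))
    (hInv : InvStatement p A A') (hGauss : GaussStatement p A A')
    (r : ℕ → ℂ)
    (hq : ∀ z : ℍ, HasSum (fun n : ℕ => r n * cexp (2 * π * Complex.I * n * z)) (theta A z)) :
    ∃ Θ : ModularForm (Gamma0 p) 2, (∀ z : ℍ, Θ z = theta A z) ∧
      ∀ n : ℕ, ModularFormClass.qCoeff Θ n = r n := by
  haveI : NeZero p := ⟨hp.ne_zero⟩
  have hol : MDiff (theta A) := mdiff_of_hasSum_q (theta A) r hq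
  have hbdd : IsBoundedAtImInfty (theta A) := isBoundedAtImInfty_of_hasSum_q (theta A) r hq
  have hlaw : ∀ γ ∈ Gamma0 p, ∀ z : ℍ, theta A (γ • z) = denom γ z ^ (2 : ℤ) * theta A z :=
    fun γ hγ z => theta_transform_full hp A A' hsymm heven hInv hGauss γ hγ z
  have hinv : ∀ γ₀ ∈ Gamma0 p, theta A ∣[(2 : ℤ)] γ₀ = theta A :=
    fun γ₀ hγ₀ => slash_eq_of_law' 2 (theta A) γ₀ (hlaw γ₀ hγ₀)
  have hS : IsBoundedAtImInfty (theta A ∣[(2 : ℤ)] ModularGroup.S) := by
    have h1 := isBoundedAtImInfty_dual hp A A' hpos' hInv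
    have heq : theta A ∣[(2 : ℤ)] ModularGroup.S = fun z : ℍ => -(1 / (p : ℂ)) *
        ∑' y : Fin 4 → ℤ, cexp (2 * π * Complex.I * (quad A' (fun i => (y i : ℝ)) : ℂ)
          * (z : ℂ) / (p : ℂ)) := funext (theta_slash_S hp A A' hInv)
    rw [heq]
    exact h1.const_mul_left _
  obtain ⟨Θ, hΘ⟩ := Fermat.Agent.S20.BasicsAux.exists_modularForm_of (N := p) 2 (theta A) hol hlaw
    (fun γ => isBoundedAtImInfty_slash_of hp (theta A) 2 hinv hbdd hS γ)
  refine ⟨Θ, fun z => congrFun hΘ z, fun n => ?_⟩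
  rw [hΘ]
  exact qCoeff_of_hasSum_q (theta A) r hq n

end Fermat.Agent.S16.TH
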