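import Mathlib
import Fermat.Agent.S16.HeckeTrick.Defs
import Fermat.Agent.S16.HeckeTrick.Dirichlet
import Fermat.Agent.S16.HeckeTrick.Package

/-!
# S16 / TH / HECKE-TRICK: statements delivered by helper16
(FROZEN interface; the proofs are in the sibling files `Quad`, `Split`, `CoreSum`, `Mobius`,
`PrimeShift`, `Dirichlet`, `Coset`, `Cusps`, `SlashS`, `QExp`, `Package`.)
-/

set_option autoImplicit false

open Complex UpperHalfPlane CongruenceSubgroup
open scoped Real MatrixGroups ModularForm Manifold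

namespace Fermat.Agent.S16.TH

/-- HECKE-TRICK 1: the transformation law of `Θ_A` under `Γ₀(p)`, from (INV) and (GAUSS). -/
theorem theta_transform {p : ℕ} (hp : p.Prime) (A A' : Matrix (Fin 4) (Fin 4) ℤ)
    (hsymm : A.IsSymm) (heven : ∀ i, Even (A i i))
    (hInv : InvStatement p A A') (hGauss : GaussStatement p A A')
    (γ : SL(2, ℤ)) (hγ : γ ∈ Gamma0 p) (z : ℍ) :
    theta A (γ • z) = denom γ z ^ (2 : ℤ) * theta A z :=
  theta_transform_full hp A A' hsymm heven hInv hGauss γ hγ z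

/-- HECKE-TRICK 2: `Θ_A` as a modular form of weight 2 on `Γ₀(p)` with its `q`-coefficients.
`hq` is the `q`-expansion delivered by THETA-ANALYTIC; `hpos'` gives boundedness of `Θ ∣ S`. -/
theorem exists_thetaForm {p : ℕ} (hp : p.Prime) (A A' : Matrix (Fin 4) (Fin 4) ℤ)
    (hsymm : A.IsSymm) (heven : ∀ i, Even (A i i))
    (hpos' : ∀ y : Fin 4 → ℤ, 0 ≤ quad A' (fun i => (y i : ℝ)))
    (hInv : InvStatement p A A') (hGauss : GaussStatement p A A')
    (r : ℕ → ℂ)
    (hq : ∀ z : ℍ, HasSum (fun n : ℕ => r n * cexp (2 * π * Complex.I * n * z)) (theta A z)) :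
    ∃ Θ : ModularForm (Gamma0 p) 2, (∀ z : ℍ, Θ z = theta A z) ∧
      ∀ n : ℕ, ModularFormClass.qCoeff Θ n = r n :=
  exists_thetaForm_aux hp A A' hsymm heven hpos' hInv hGauss r hq

end Fermat.Agent.S16.TH
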